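import Mathlib
import Fermat.Agent.MUL.S36.Ig.EpsGen
import Fermat.Agent.MUL.Orig.S48.Eis1.Statement
import Fermat.Agent.MUL.Orig.S48.Conj

section MergeWrap_S48_Eis1_Phi -- from S48/Eis1/Phi.lean

set_option autoImplicit false

/-!
# S48 (P2), weight-one Eisenstein series, file E: the division values `φ_v`  (helper33)

For `N ≥ 1`, `v = (r, s) ∈ ℤ²`, `v ≢ 0 mod N`:

  `φ_v(τ) = Z((rτ + s)/N, τ) + 2πi r/N`

* `phiFun_add`    : `φ_{v + N u} = φ_v`;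
* `phiFun_smul`   : `φ_v(γτ) = (cτ+d) φ_{vγ}(τ)` for all `γ ∈ SL(2, ℤ)`;
* `phiFun_slash`  : `φ_v ∣[1] γ = φ_{vγ}`;
* `mdifferentiable_phiFun`, `isBoundedAtImInfty_phiFun`.
-/

noncomputable section

open Complex Real Filter Topology EisensteinSeries ModularForm
open UpperHalfPlane hiding I
open scoped MatrixGroups Manifold

namespace Fermat.Agent.S48.Eis1

/-- the division point `(rτ + s)/N`. -/
def zPt (N : ℕ) (r s : ℤ) (t : ℂ) : ℂ := ((r : ℂ) * t + s) / N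

/-- `φ_v` on `ℂ`. -/
def phiC (N : ℕ) (r s : ℤ) (t : ℂ) : ℂ := zFun (zPt N r s t) t + 2 * π * I * r / N

/-- `φ_v` on `ℍ`. -/
def phiFun (N : ℕ) (r s : ℤ) (τ : ℍ) : ℂ := phiC N r s τ

theorem not_isLat_zPt {N : ℕ} [NeZero N] {r s : ℤ} (h : ¬ ((N : ℤ) ∣ r ∧ (N : ℤ) ∣ s))
    {t : ℂ} (ht : 0 < t.im) : ¬ IsLat (zPt N r s t) t := by
  rintro ⟨m, n, e⟩
  have hN : (N : ℂ) ≠ 0 := Nat.cast_ne_zero.mpr (NeZero.ne N)
  have e' : (r : ℂ) * t + s = N * (m * t + n) := by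
    rw [zPt, div_eq_iff hN] at e
    rw [e]
    ring
  have him := congrArg Complex.im e'
  have hre := congrArg Complex.re e'
  simp at him hre
  have hr : (r : ℝ) = N * m := by
    apply mul_right_cancel₀ ht.ne'
    linear_combination him
  have hs : (s : ℝ) = N * n := by
    linear_combination hre - t.re * hr
  apply h
  constructor
  · exact ⟨m, by exact_mod_cast hr⟩
  · exact ⟨n, by exact_mod_cast hs⟩

theorem zPt_add (N : ℕ) [NeZero N] (r s u v : ℤ) (t : ℂ) :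
    zPt N (r + N * u) (s + N * v) t = zPt N r s t + u * t + v := by
  have hN : (N : ℂ) ≠ 0 := Nat.cast_ne_zero.mpr (NeZero.ne N)
  rw [zPt, zPt]
  push_cast
  field_simp
  ring

/-- `φ_{v + N u} = φ_v`. -/
theorem phiC_add {N : ℕ} [NeZero N] {r s : ℤ} (h : ¬ ((N : ℤ) ∣ r ∧ (N : ℤ) ∣ s)) (u v : ℤ)
    {t : ℂ} (ht : 0 < t.im) :
    phiC N (r + N * u) (s + N * v) t = phiC N r s t := by
  have hN : (N : ℂ) ≠ 0 := Nat.cast_ne_zero.mpr (NeZero.ne N)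
  rw [phiC, phiC, zPt_add, zFun_add_lat ht (not_isLat_zPt h ht)]
  push_cast
  field_simp
  ring

theorem phiFun_add {N : ℕ} [NeZero N] {r s : ℤ} (h : ¬ ((N : ℤ) ∣ r ∧ (N : ℤ) ∣ s)) (u v : ℤ)
    (τ : ℍ) : phiFun N (r + N * u) (s + N * v) τ = phiFun N r s τ :=
  phiC_add h u v τ.im_pos

/-- `φ_v(γτ) = (cτ + d) φ_{vγ}(τ)`. -/
theorem phiFun_smul {N : ℕ} [NeZero N] {r s : ℤ} (h : ¬ ((N : ℤ) ∣ r ∧ (N : ℤ) ∣ s))
    (γ : SL(2, ℤ)) (τ : ℍ) :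
    phiFun N r s (γ • τ)
      = jFac γ τ * phiFun N (r * γ 0 0 + s * γ 1 0) (r * γ 0 1 + s * γ 1 1) τ := by
  have hN : (N : ℂ) ≠ 0 := Nat.cast_ne_zero.mpr (NeZero.ne N)
  have hj := jFac_ne_zero γ τ
  have hdet := sl2_det_complex γ
  have e1 : zPt N r s ((γ • τ : ℍ) : ℂ)
      = zPt N (r * γ 0 0 + s * γ 1 0) (r * γ 0 1 + s * γ 1 1) τ / jFac γ τ := by
    rw [zPt, zPt, coe_smul_eq]
    push_cast
    field_simp
    rw [jFac]
    ring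
  have hz : ¬ IsLat (zPt N (r * γ 0 0 + s * γ 1 0) (r * γ 0 1 + s * γ 1 1) τ) τ := by
    have h0 := not_isLat_zPt h (γ • τ : ℍ).im_pos
    rw [e1, isLat_smul_iff, mul_div_cancel₀ _ hj] at h0
    exact h0
  rw [phiFun, phiFun, phiC, phiC, e1, zFun_smul γ τ hz, zPt]
  push_cast
  field_simp
  rw [jFac]
  linear_combination (-(2 * π * I * (r : ℂ))) * hdet

theorem phiFun_slash {N : ℕ} [NeZero N] {r s : ℤ} (h : ¬ ((N : ℤ) ∣ r ∧ (N : ℤ) ∣ s))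
    (γ : SL(2, ℤ)) :
    (phiFun N r s) ∣[(1 : ℤ)] γ = phiFun N (r * γ 0 0 + s * γ 1 0) (r * γ 0 1 + s * γ 1 1) := by
  funext τ
  rw [SL_slash_apply, phiFun_smul h]
  have hd : denom (Matrix.SpecialLinearGroup.toGL
      ((Matrix.SpecialLinearGroup.map (Int.castRingHom ℝ)) γ)) (τ : ℂ) = jFac γ τ :=
    denom_eq_jFac γ τ
  rw [hd, zpow_neg, zpow_one, mul_comm (jFac γ τ), mul_assoc,
    mul_inv_cancel₀ (jFac_ne_zero γ τ), mul_one]


/-! ### bounds for `0 ≤ r < N` -/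

theorem norm_eExp_affine (A B : ℝ) (t : ℂ) :
    ‖eExp ((A : ℂ) * t + (B : ℂ))‖ = Real.exp (-2 * π * (A * t.im)) := by
  rw [norm_eExp]
  congr 2
  simp

theorem norm_eExp_affine_le {N : ℕ} [NeZero N] {A δ : ℝ} (hδ : 0 < δ) (n : ℕ)
    (hA : (n : ℝ) + 1 / N ≤ A) (B : ℝ) {t : ℂ} (ht : δ ≤ t.im) :
    ‖eExp ((A : ℂ) * t + (B : ℂ))‖
      ≤ Real.exp (-2 * π * δ / N) * Real.exp (-2 * π * δ) ^ n := by
  have hN : (0 : ℝ) < N := Nat.cast_pos.mpr (Nat.pos_of_ne_zero (NeZero.ne N))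
  rw [norm_eExp_affine, ← Real.exp_nat_mul, ← Real.exp_add, Real.exp_le_exp]
  have hA0 : 0 ≤ A := le_trans (by positivity) hA
  have h1 : A * δ ≤ A * t.im := mul_le_mul_of_nonneg_left ht hA0
  have h2 : ((n : ℝ) + 1 / N) * δ ≤ A * δ := mul_le_mul_of_nonneg_right hA hδ.le
  have e : -2 * π * δ / N + n * (-2 * π * δ) = -2 * π * (((n : ℝ) + 1 / N) * δ) := by
    field_simp
    ring
  rw [e]
  have := Real.pi_pos
  nlinarith

theorem zPt_eq_affine (N : ℕ) (r s : ℤ) (t : ℂ) :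
    zPt N r s t = ((((r : ℝ) / N : ℝ)) : ℂ) * t + ((((s : ℝ) / N : ℝ)) : ℂ) := by
  rw [zPt]
  push_cast
  ring

theorem neg_zPt_add_eq (N : ℕ) (r s : ℤ) (t : ℂ) (n : ℕ) :
    -zPt N r s t + ((n + 1 : ℕ) : ℂ) * t
      = (((((n : ℝ) + 1 - (r : ℝ) / N : ℝ))) : ℂ) * t + (((-((s : ℝ) / N) : ℝ)) : ℂ) := by
  rw [zPt]
  push_cast
  ring

theorem zPt_add_eq (N : ℕ) (r s : ℤ) (t : ℂ) (n : ℕ) :
    zPt N r s t + ((n + 1 : ℕ) : ℂ) * t
      = (((((n : ℝ) + 1 + (r : ℝ) / N : ℝ))) : ℂ) * t + ((((s : ℝ) / N : ℝ)) : ℂ) := by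
  rw [zPt]
  push_cast
  ring

/-- `ρ = exp(-2πδ/N)`. -/
def rhoB (N : ℕ) (δ : ℝ) : ℝ := Real.exp (-2 * π * δ / N)

/-- `Q = exp(-2πδ)`. -/
def qB (δ : ℝ) : ℝ := Real.exp (-2 * π * δ)

theorem rhoB_pos (N : ℕ) (δ : ℝ) : 0 < rhoB N δ := Real.exp_pos _

theorem rhoB_lt_one (N : ℕ) [NeZero N] {δ : ℝ} (hδ : 0 < δ) : rhoB N δ < 1 := by
  have hN : (0 : ℝ) < N := Nat.cast_pos.mpr (Nat.pos_of_ne_zero (NeZero.ne N))
  rw [rhoB, Real.exp_lt_one_iff]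
  have : 0 < 2 * π * δ / N := by positivity
  have e : -2 * π * δ / N = -(2 * π * δ / N) := by ring
  rw [e]
  linarith

theorem qB_nonneg (δ : ℝ) : 0 ≤ qB δ := (Real.exp_pos _).le

theorem qB_lt_one {δ : ℝ} (hδ : 0 < δ) : qB δ < 1 := by
  rw [qB, Real.exp_lt_one_iff]
  have := Real.pi_pos
  nlinarith

theorem rhoB_mul_le (N : ℕ) (δ : ℝ) {δ' : ℝ} (hδ : 0 < δ') (n : ℕ) :
    rhoB N δ * qB δ' ^ n ≤ rhoB N δ := by
  have h1 : qB δ' ^ n ≤ 1 := pow_le_one₀ (qB_nonneg δ') (qB_lt_one hδ).le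
  have := rhoB_pos N δ
  nlinarith

theorem cast_bounds {N : ℕ} [NeZero N] {r : ℤ} (hr0 : 0 ≤ r) (hrN : r < N) :
    (0 : ℝ) ≤ (r : ℝ) / N ∧ (r : ℝ) / N + 1 / N ≤ 1 := by
  have hN : (0 : ℝ) < N := Nat.cast_pos.mpr (Nat.pos_of_ne_zero (NeZero.ne N))
  have h0 : (0 : ℝ) ≤ r := by exact_mod_cast hr0
  have h1 : (r : ℝ) + 1 ≤ N := by exact_mod_cast Int.add_one_le_iff.mpr hrN
  constructor
  · positivity
  · rw [← add_div, div_le_one hN]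
    exact h1

theorem norm_eExp_neg_zPt_le {N : ℕ} [NeZero N] {r : ℤ} (s : ℤ) (hr0 : 0 ≤ r) (hrN : r < N)
    {δ : ℝ} (hδ : 0 < δ) {t : ℂ} (ht : δ ≤ t.im) (n : ℕ) :
    ‖eExp (-zPt N r s t + ((n + 1 : ℕ) : ℂ) * t)‖ ≤ rhoB N δ * qB δ ^ n := by
  rw [neg_zPt_add_eq]
  obtain ⟨h0, h1⟩ := cast_bounds hr0 hrN
  exact norm_eExp_affine_le hδ n (by linarith) _ ht

theorem norm_eExp_zPt_add_le {N : ℕ} [NeZero N] {r : ℤ} (s : ℤ) (hr0 : 0 ≤ r) (hrN : r < N)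
    {δ : ℝ} (hδ : 0 < δ) {t : ℂ} (ht : δ ≤ t.im) (n : ℕ) :
    ‖eExp (zPt N r s t + ((n + 1 : ℕ) : ℂ) * t)‖ ≤ rhoB N δ * qB δ ^ n := by
  rw [zPt_add_eq]
  obtain ⟨h0, h1⟩ := cast_bounds hr0 hrN
  have hN : (0 : ℝ) < N := Nat.cast_pos.mpr (Nat.pos_of_ne_zero (NeZero.ne N))
  have h2 : (1 : ℝ) / N ≤ 1 := by
    have : (0 : ℝ) ≤ (r : ℝ) / N := h0
    linarith
  exact norm_eExp_affine_le hδ n (by linarith) _ ht

theorem norm_eExp_zPt_le {N : ℕ} [NeZero N] {r : ℤ} (s : ℤ) (hr0 : 0 < r)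
    {δ : ℝ} (hδ : 0 < δ) {t : ℂ} (ht : δ ≤ t.im) :
    ‖eExp (zPt N r s t)‖ ≤ rhoB N δ := by
  rw [zPt_eq_affine]
  have hN : (0 : ℝ) < N := Nat.cast_pos.mpr (Nat.pos_of_ne_zero (NeZero.ne N))
  have h1 : (1 : ℝ) ≤ r := by exact_mod_cast Int.add_one_le_iff.mpr hr0
  have h2 : ((0 : ℕ) : ℝ) + 1 / N ≤ (r : ℝ) / N := by
    rw [Nat.cast_zero, zero_add]
    exact div_le_div_of_nonneg_right h1 hN.le
  have := norm_eExp_affine_le (N := N) hδ 0 h2 ((s : ℝ) / N) ht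
  simpa [rhoB] using this

/-- the summable majorant. -/
def uB (N : ℕ) (δ : ℝ) (n : ℕ) : ℝ := 2 * (rhoB N δ * qB δ ^ n / (1 - rhoB N δ))

theorem summable_uB (N : ℕ) {δ : ℝ} (hδ : 0 < δ) : Summable (uB N δ) := by
  have := (summable_geometric_of_lt_one (qB_nonneg δ) (qB_lt_one hδ)).mul_left
    (2 * (rhoB N δ / (1 - rhoB N δ)))
  refine this.congr fun n => ?_
  rw [uB]
  ring

theorem norm_zTerm_zPt_le {N : ℕ} [NeZero N] {r : ℤ} (s : ℤ) (hr0 : 0 ≤ r) (hrN : r < N)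
    {δ : ℝ} (hδ : 0 < δ) {t : ℂ} (ht : δ ≤ t.im) (n : ℕ) :
    ‖zTerm (zPt N r s t) t n‖ ≤ uB N δ n := by
  have hρ := rhoB_lt_one N hδ
  have hpos : 0 < 1 - rhoB N δ := by linarith
  have b1 := norm_eExp_neg_zPt_le s hr0 hrN hδ ht n
  have b2 := norm_eExp_zPt_add_le s hr0 hrN hδ ht n
  have hle := rhoB_mul_le N δ hδ n
  have g1 := (norm_gFun_le_of_le hρ (b1.trans hle)).trans
    (div_le_div_of_nonneg_right b1 hpos.le)
  have g2 := (norm_gFun_le_of_le hρ (b2.trans hle)).trans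
    (div_le_div_of_nonneg_right b2 hpos.le)
  rw [zTerm, uB]
  refine (norm_sub_le _ _).trans ?_
  linarith

theorem eExp_neg_zPt_ne_one {N : ℕ} [NeZero N] {r : ℤ} (s : ℤ) (hr0 : 0 ≤ r) (hrN : r < N)
    {t : ℂ} (ht : 0 < t.im) (n : ℕ) :
    eExp (-zPt N r s t + ((n + 1 : ℕ) : ℂ) * t) ≠ 1 := by
  refine eExp_ne_one_of_norm_lt ?_
  exact lt_of_le_of_lt ((norm_eExp_neg_zPt_le s hr0 hrN ht le_rfl n).trans
    (rhoB_mul_le N _ ht n)) (rhoB_lt_one N ht)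

theorem eExp_zPt_add_ne_one {N : ℕ} [NeZero N] {r : ℤ} (s : ℤ) (hr0 : 0 ≤ r) (hrN : r < N)
    {t : ℂ} (ht : 0 < t.im) (n : ℕ) :
    eExp (zPt N r s t + ((n + 1 : ℕ) : ℂ) * t) ≠ 1 := by
  refine eExp_ne_one_of_norm_lt ?_
  exact lt_of_le_of_lt ((norm_eExp_zPt_add_le s hr0 hrN ht le_rfl n).trans
    (rhoB_mul_le N _ ht n)) (rhoB_lt_one N ht)

/-! ### holomorphy -/

theorem differentiable_zPt (N : ℕ) (r s : ℤ) : Differentiable ℂ (zPt N r s) := by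
  unfold zPt
  fun_prop

theorem differentiableAt_zTerm_zPt {N : ℕ} [NeZero N] {r : ℤ} (s : ℤ) (hr0 : 0 ≤ r)
    (hrN : r < N) {t : ℂ} (ht : 0 < t.im) (n : ℕ) :
    DifferentiableAt ℂ (fun t : ℂ => zTerm (zPt N r s t) t n) t := by
  have h1 := eExp_neg_zPt_ne_one s hr0 hrN ht n
  have h2 := eExp_zPt_add_ne_one s hr0 hrN ht n
  have d1 : DifferentiableAt ℂ (fun t : ℂ => -zPt N r s t + ((n + 1 : ℕ) : ℂ) * t) t := by
    have := (differentiable_zPt N r s) t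
    fun_prop
  have d2 : DifferentiableAt ℂ (fun t : ℂ => zPt N r s t + ((n + 1 : ℕ) : ℂ) * t) t := by
    have := (differentiable_zPt N r s) t
    fun_prop
  have c1 := (hasDerivAt_gFun_eExp h1).differentiableAt.comp t d1
  have c2 := (hasDerivAt_gFun_eExp h2).differentiableAt.comp t d2
  exact c1.sub c2

theorem differentiableAt_phiC_red {N : ℕ} [NeZero N] {r s : ℤ}
    (h : ¬ ((N : ℤ) ∣ r ∧ (N : ℤ) ∣ s)) (hr0 : 0 ≤ r) (hrN : r < N) {t₀ : ℂ}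
    (ht₀ : 0 < t₀.im) : DifferentiableAt ℂ (phiC N r s) t₀ := by
  set δ : ℝ := t₀.im / 2 with hδ_def
  have hδ : 0 < δ := by positivity
  have hU : IsOpen {t : ℂ | δ < t.im} := isOpen_lt continuous_const Complex.continuous_im
  have ht₀U : t₀ ∈ {t : ℂ | δ < t.im} := by
    show δ < t₀.im
    rw [hδ_def]
    linarith
  have hsum : DifferentiableOn ℂ (fun t : ℂ => ∑' n : ℕ, zTerm (zPt N r s t) t n)
      {t : ℂ | δ < t.im} := by
    refine differentiableOn_tsum_of_summable_norm (summable_uB N hδ) (fun n t ht => ?_) hU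
      (fun n t ht => ?_)
    · exact (differentiableAt_zTerm_zPt s hr0 hrN (lt_trans hδ ht) n).differentiableWithinAt
    · exact norm_zTerm_zPt_le s hr0 hrN hδ (le_of_lt ht) n
  have hsum' := hsum.differentiableAt (hU.mem_nhds ht₀U)
  have hcot : DifferentiableAt ℂ (fun t : ℂ => π * Complex.cot (π * zPt N r s t)) t₀ := by
    have hne : eExp (zPt N r s t₀) ≠ 1 := eExp_ne_one_of_not_isLat' (not_isLat_zPt h ht₀)
    exact (eis1_hasDerivAt_pi_cot hne).differentiableAt.comp t₀ ((differentiable_zPt N r s) t₀)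
  have : phiC N r s = fun t : ℂ => π * Complex.cot (π * zPt N r s t)
      + 2 * π * I * (∑' n : ℕ, zTerm (zPt N r s t) t n) + 2 * π * I * r / N := by
    funext t
    rw [phiC, zFun]
  rw [this]
  exact (hcot.add (hsum'.const_mul _)).add_const _

theorem dvd_emod_iff_aux (N : ℕ) (r : ℤ) : (N : ℤ) ∣ r % N ↔ (N : ℤ) ∣ r := by
  constructor
  · intro h
    have := Int.emod_add_mul_ediv r N
    rw [← this]
    exact dvd_add h (dvd_mul_right _ _)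
  · intro h
    have := Int.emod_add_mul_ediv r N
    have e : r % (N : ℤ) = r - (N : ℤ) * (r / N) := by linarith
    rw [e]
    exact dvd_sub h (dvd_mul_right _ _)

theorem phiC_emod {N : ℕ} [NeZero N] {r s : ℤ} (h : ¬ ((N : ℤ) ∣ r ∧ (N : ℤ) ∣ s))
    {t : ℂ} (ht : 0 < t.im) : phiC N r s t = phiC N (r % N) s t := by
  have h' : ¬ ((N : ℤ) ∣ r % N ∧ (N : ℤ) ∣ s) := by
    rw [dvd_emod_iff_aux]
    exact h
  have := phiC_add h' (r / N) 0 ht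
  rw [mul_zero, add_zero, Int.emod_add_mul_ediv] at this
  exact this

theorem differentiableOn_phiC {N : ℕ} [NeZero N] {r s : ℤ}
    (h : ¬ ((N : ℤ) ∣ r ∧ (N : ℤ) ∣ s)) :
    DifferentiableOn ℂ (phiC N r s) {t : ℂ | 0 < t.im} := by
  have hN : (0 : ℤ) < N := by exact_mod_cast Nat.pos_of_ne_zero (NeZero.ne N)
  have h' : ¬ ((N : ℤ) ∣ r % N ∧ (N : ℤ) ∣ s) := by
    rw [dvd_emod_iff_aux]
    exact h
  have hU : IsOpen {t : ℂ | 0 < t.im} := isOpen_lt continuous_const Complex.continuous_im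
  intro t ht
  have hd := differentiableAt_phiC_red h' (Int.emod_nonneg r hN.ne') (Int.emod_lt_of_pos r hN) ht
  refine (hd.congr_of_eventuallyEq ?_).differentiableWithinAt
  filter_upwards [hU.mem_nhds ht] with y hy
  exact phiC_emod h hy

theorem mdifferentiable_phiFun {N : ℕ} [NeZero N] {r s : ℤ}
    (h : ¬ ((N : ℤ) ∣ r ∧ (N : ℤ) ∣ s)) :
    MDifferentiable 𝓘(ℂ) 𝓘(ℂ) (phiFun N r s) := by
  rw [UpperHalfPlane.mdifferentiable_iff]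
  refine (differentiableOn_phiC h).congr fun t ht => ?_
  simp only [Function.comp_apply, phiFun]
  rw [ofComplex_apply_of_im_pos ht]

/-! ### boundedness at `i∞` -/

theorem exists_bound_phiC_red {N : ℕ} [NeZero N] {r s : ℤ}
    (_h : ¬ ((N : ℤ) ∣ r ∧ (N : ℤ) ∣ s)) (hr0 : 0 ≤ r) (hrN : r < N) :
    ∃ M : ℝ, ∀ t : ℂ, 1 ≤ t.im → ‖phiC N r s t‖ ≤ M := by
  have hδ : (0 : ℝ) < 1 := one_pos
  have hρ := rhoB_lt_one N hδ
  have hpos : 0 < 1 - rhoB N 1 := by linarith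
  have hn2 : ‖(2 * π * I : ℂ)‖ = 2 * π := by
    simp [abs_of_pos Real.pi_pos]
  -- the cotangent part
  have hcot : ∃ C : ℝ, ∀ t : ℂ, 1 ≤ t.im → ‖(π : ℂ) * Complex.cot (π * zPt N r s t)‖ ≤ C := by
    rcases hr0.lt_or_eq with hr | hr
    · refine ⟨π + 2 * π * (rhoB N 1 / (1 - rhoB N 1)), fun t ht => ?_⟩
      have hb := norm_eExp_zPt_le (N := N) s hr hδ ht
      have hne : eExp (zPt N r s t) ≠ 1 := eExp_ne_one_of_norm_lt (lt_of_le_of_lt hb hρ)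
      have hg := (norm_gFun_le_of_le hρ hb).trans (div_le_div_of_nonneg_right hb hpos.le)
      rw [eis1_pi_cot_eq hne]
      refine (norm_sub_le _ _).trans ?_
      rw [norm_neg, norm_mul, norm_mul, hn2]
      have e1 : ‖(π : ℂ)‖ = π := by simp [abs_of_pos Real.pi_pos]
      rw [e1, Complex.norm_I, mul_one]
      have := Real.pi_pos
      nlinarith
    · refine ⟨‖(π : ℂ) * Complex.cot (π * ((s : ℂ) / N))‖, fun t _ => ?_⟩
      rw [zPt, ← hr]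
      simp
  obtain ⟨C, hC⟩ := hcot
  refine ⟨C + 2 * π * (∑' n : ℕ, uB N 1 n) + ‖(2 * π * I * r / N : ℂ)‖, fun t ht => ?_⟩
  have hts : ‖∑' n : ℕ, zTerm (zPt N r s t) t n‖ ≤ ∑' n : ℕ, uB N 1 n :=
    tsum_of_norm_bounded (summable_uB N hδ).hasSum
      (fun n => norm_zTerm_zPt_le s hr0 hrN hδ ht n)
  rw [phiC, zFun]
  refine (norm_add_le _ _).trans ?_
  refine add_le_add ((norm_add_le _ _).trans (add_le_add (hC t ht) ?_)) le_rfl
  rw [norm_mul, hn2]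
  have := Real.pi_pos
  exact mul_le_mul_of_nonneg_left hts (by positivity)

theorem isBoundedAtImInfty_phiFun {N : ℕ} [NeZero N] {r s : ℤ}
    (h : ¬ ((N : ℤ) ∣ r ∧ (N : ℤ) ∣ s)) : IsBoundedAtImInfty (phiFun N r s) := by
  have hN : (0 : ℤ) < N := by exact_mod_cast Nat.pos_of_ne_zero (NeZero.ne N)
  have h' : ¬ ((N : ℤ) ∣ r % N ∧ (N : ℤ) ∣ s) := by
    rw [dvd_emod_iff_aux]
    exact h
  obtain ⟨M, hM⟩ := exists_bound_phiC_red h' (Int.emod_nonneg r hN.ne')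
    (Int.emod_lt_of_pos r hN)
  rw [UpperHalfPlane.isBoundedAtImInfty_iff]
  refine ⟨M, 1, fun τ hτ => ?_⟩
  rw [phiFun, phiC_emod h τ.im_pos]
  exact hM τ hτ

end Fermat.Agent.S48.Eis1
end
end MergeWrap_S48_Eis1_Phi

section MergeWrap_S48_Eis1_Def -- from S48/Eis1/Def.lean

set_option autoImplicit false

/-!
# S48 (P2): the function `E₁^ψ`  (helper33)

`E₁^ψ(τ) = (-4πi)⁻¹ ∑_{y mod N} ψ(y) φ_{(y,0)}(Nτ)`,
`φ_{(y,0)}(Nτ) = Z(yτ, Nτ) + 2πi y/N`  (`phiC N y 0 (N τ)`).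

Seats:
* `Eis1/QExp.lean` : `hasSum_eis1Fun` (the `q`-expansion, statement `Eis1QExpStatement` below);
* `Eis1/Main.lean` : the modular form on `Γ₁(N)`, nebentypus, `eis1Statement`.
-/

noncomputable section

open Complex Real
open UpperHalfPlane hiding I
open scoped MatrixGroups

namespace Fermat.Agent.S48.Eis1

/-- `E₁^ψ(τ) = (-4πi)⁻¹ ∑_{y mod N} ψ(y) (Z(yτ, Nτ) + 2πi y/N)`. -/
def eis1Fun (N : ℕ) [NeZero N] (ψ : DirichletCharacter ℂ N) (τ : ℍ) : ℂ :=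
  (-(4 * π * I))⁻¹ * ∑ y : ZMod N, ψ y * phiC N (y.val : ℤ) 0 ((N : ℂ) * τ)

/-- the `q`-coefficients of `E₁^ψ`. -/
def eis1Coeff (N : ℕ) [NeZero N] (ψ : DirichletCharacter ℂ N) (n : ℕ) : ℂ :=
  if n = 0 then -(1 / (2 * (N : ℂ))) * ∑ a ∈ Finset.range N, (a : ℂ) * ψ (a : ZMod N)
  else ∑ d ∈ n.divisors, ψ (d : ZMod N)

/-- **the `q`-expansion of `E₁^ψ`** (seat QEXP): for odd `ψ`,
`E₁^ψ(τ) = ∑_n eis1Coeff n · qⁿ`, `q = exp(2πi τ)`. -/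
def Eis1QExpStatement : Prop :=
  ∀ (N : ℕ) [NeZero N] (ψ : DirichletCharacter ℂ N), ψ.Odd → ∀ τ : ℍ,
    HasSum (fun n : ℕ => eis1Coeff N ψ n • Function.Periodic.qParam 1 τ ^ n) (eis1Fun N ψ τ)

end Fermat.Agent.S48.Eis1
end
end MergeWrap_S48_Eis1_Def

section MergeWrap_S48_Eis1_Main -- from S48/Eis1/Main.lean

set_option autoImplicit false
set_option synthInstance.maxHeartbeats 400000

/-!
# S48 (P2): the weight-one Eisenstein series `E₁^ψ` as a modular form on `Γ₁(N)`  (helper33)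

* `fSum N ψ = ∑_{u ∈ (ℤ/N)ˣ} ψ(u) φ_{(u,0)}` is a modular form of weight one on `Γ(N)`
  (`fSumMF`), and `fSum(γ̃ T) = j ψ(d) fSum(T)` for `γ̃ ≡ (a 0; * d) mod N`;
* `E₁^ψ(τ) = (-4πi)⁻¹ fSum(Nτ)` is a modular form on `Γ₁(N)` with nebentypus `ψ`
  (`eis1MF`, `eis1_neb`);
* `eis1Statement_of : Eis1QExpStatement → Eis1Statement`.
-/

noncomputable section

open Complex Real Filter Topology EisensteinSeries ModularForm CongruenceSubgroup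
open UpperHalfPlane hiding I
open scoped MatrixGroups Manifold Pointwise

namespace Fermat.Agent.S48.Eis1

/-- `Φ(y) = φ_{(y, 0)}` for `y ∈ ℤ/N`. -/
def phiZ (N : ℕ) (y : ZMod N) : ℍ → ℂ := phiFun N (y.val : ℤ) 0

theorem not_dvd_of_intCast_ne_zero {N : ℕ} {m : ℤ} (h : (m : ZMod N) ≠ 0) : ¬ (N : ℤ) ∣ m :=
  fun hd => h ((ZMod.intCast_zmod_eq_zero_iff_dvd m N).mpr hd)

/-- `φ_{(m, n)} = Φ(m mod N)` if `N ∣ n`, `N ∤ m`. -/
theorem phiFun_eq_phiZ {N : ℕ} [NeZero N] {m n : ℤ} (hm : (m : ZMod N) ≠ 0)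
    (hn : (N : ℤ) ∣ n) : phiFun N m n = phiZ N (m : ZMod N) := by
  funext τ
  obtain ⟨v, rfl⟩ := hn
  have hval : (((m : ZMod N)).val : ℤ) = m % N := ZMod.val_intCast m
  have h' : ¬ ((N : ℤ) ∣ m % N ∧ (N : ℤ) ∣ 0) := by
    rw [dvd_emod_iff_aux]
    exact fun h => not_dvd_of_intCast_ne_zero hm h.1
  have := phiFun_add h' (m / N) v τ
  rw [Int.emod_add_mul_ediv, zero_add] at this
  rw [this, phiZ, hval]

theorem intCast_val_eq {N : ℕ} [NeZero N] (y : ZMod N) : (((y.val : ℕ) : ℤ) : ZMod N) = y := by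
  rw [Int.cast_natCast, ZMod.natCast_zmod_val]

theorem unit_val_not_dvd {N : ℕ} [NeZero N] (hN : 1 < N) (u : (ZMod N)ˣ) :
    ¬ ((N : ℤ) ∣ (((u : ZMod N).val : ℕ) : ℤ) ∧ (N : ℤ) ∣ 0) := by
  have : Fact (1 < N) := ⟨hN⟩
  intro h
  have h1 := (ZMod.intCast_zmod_eq_zero_iff_dvd _ N).mpr h.1
  rw [intCast_val_eq] at h1
  exact u.ne_zero h1

/-- `F = ∑_{u ∈ (ℤ/N)ˣ} ψ(u) φ_{(u, 0)}`. -/
def fSum (N : ℕ) [NeZero N] (ψ : DirichletCharacter ℂ N) (τ : ℍ) : ℂ :=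
  ∑ u : (ZMod N)ˣ, ψ u * phiZ N (u : ZMod N) τ

/-- the translate of `F` by `γ`. -/
def fSumAt (N : ℕ) [NeZero N] (ψ : DirichletCharacter ℂ N) (γ : SL(2, ℤ)) (τ : ℍ) : ℂ :=
  ∑ u : (ZMod N)ˣ, ψ u *
    phiFun N ((((u : ZMod N).val : ℕ) : ℤ) * γ 0 0) ((((u : ZMod N).val : ℕ) : ℤ) * γ 0 1) τ

theorem fSum_smul {N : ℕ} [NeZero N] (hN : 1 < N) (ψ : DirichletCharacter ℂ N)
    (γ : SL(2, ℤ)) (τ : ℍ) :
    fSum N ψ (γ • τ) = jFac γ τ * fSumAt N ψ γ τ := by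
  rw [fSum, fSumAt, Finset.mul_sum]
  refine Finset.sum_congr rfl fun u _ => ?_
  rw [phiZ, phiFun_smul (unit_val_not_dvd hN u)]
  simp only [zero_mul, add_zero]
  ring

theorem fSum_slash {N : ℕ} [NeZero N] (hN : 1 < N) (ψ : DirichletCharacter ℂ N)
    (γ : SL(2, ℤ)) : (fSum N ψ) ∣[(1 : ℤ)] γ = fSumAt N ψ γ := by
  funext τ
  rw [SL_slash_apply, fSum_smul hN]
  have hd : denom (Matrix.SpecialLinearGroup.toGL
      ((Matrix.SpecialLinearGroup.map (Int.castRingHom ℝ)) γ)) (τ : ℂ) = jFac γ τ :=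
    denom_eq_jFac γ τ
  rw [hd, zpow_neg, zpow_one, mul_comm (jFac γ τ), mul_assoc,
    mul_inv_cancel₀ (jFac_ne_zero γ τ), mul_one]

theorem unit_mul_ne_zero {N : ℕ} [NeZero N] (hN : 1 < N) (u : (ZMod N)ˣ) {a : ℤ}
    (ha : IsUnit (a : ZMod N)) :
    ((((((u : ZMod N).val : ℕ) : ℤ) * a : ℤ)) : ZMod N) ≠ 0 := by
  have : Fact (1 < N) := ⟨hN⟩
  rw [Int.cast_mul, intCast_val_eq]
  exact (u.isUnit.mul ha).ne_zero

theorem phiFun_unit {N : ℕ} [NeZero N] (hN : 1 < N) (u : (ZMod N)ˣ) {a b : ℤ}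
    (ha : IsUnit (a : ZMod N)) (hb : (b : ZMod N) = 0) :
    phiFun N ((((u : ZMod N).val : ℕ) : ℤ) * a) ((((u : ZMod N).val : ℕ) : ℤ) * b)
      = phiZ N ((u : ZMod N) * (a : ZMod N)) := by
  have hb' : (N : ℤ) ∣ (((u : ZMod N).val : ℕ) : ℤ) * b :=
    Dvd.dvd.mul_left ((ZMod.intCast_zmod_eq_zero_iff_dvd b N).mp hb) _
  rw [phiFun_eq_phiZ (unit_mul_ne_zero hN u ha) hb', Int.cast_mul, intCast_val_eq]

/-- `F(γ̃ T) = j · ψ(a)⁻¹ F(T)` for `γ̃ = (a b; c d)` with `b ≡ 0 mod N`. -/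
theorem fSumAt_of_upper {N : ℕ} [NeZero N] (hN : 1 < N) (ψ : DirichletCharacter ℂ N)
    (γ : SL(2, ℤ)) (a : (ZMod N)ˣ) (ha : ((γ 0 0 : ℤ) : ZMod N) = a)
    (hb : ((γ 0 1 : ℤ) : ZMod N) = 0) (τ : ℍ) :
    fSumAt N ψ γ τ = ψ (a⁻¹ : (ZMod N)ˣ) * fSum N ψ τ := by
  have hau : IsUnit ((γ 0 0 : ℤ) : ZMod N) := by
    rw [ha]
    exact a.isUnit
  rw [fSumAt, fSum, Finset.mul_sum]
  have e1 : ∀ u : (ZMod N)ˣ, ψ u *
      phiFun N ((((u : ZMod N).val : ℕ) : ℤ) * γ 0 0) ((((u : ZMod N).val : ℕ) : ℤ) * γ 0 1) τ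
      = ψ (a⁻¹ : (ZMod N)ˣ) * (ψ ((u * a : (ZMod N)ˣ)) * phiZ N ((u * a : (ZMod N)ˣ) : ZMod N) τ) := by
    intro u
    rw [phiFun_unit hN u hau hb, ha]
    have : ψ (a⁻¹ : (ZMod N)ˣ) * ψ ((u * a : (ZMod N)ˣ)) = ψ u := by
      rw [← map_mul]
      congr 1
      push_cast
      rw [mul_comm, mul_assoc, Units.mul_inv, mul_one]
    rw [← mul_assoc, this]
    push_cast
    rfl
  simp_rw [e1]
  exact Fintype.sum_equiv (Equiv.mulRight a) _ _ (fun u => rfl)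


/-! ### `F` is a modular form on `Γ(N)` -/

theorem unit_row_not_dvd {N : ℕ} [NeZero N] (hN : 1 < N) (u : (ZMod N)ˣ) (γ : SL(2, ℤ)) :
    ¬ ((N : ℤ) ∣ (((u : ZMod N).val : ℕ) : ℤ) * γ 0 0 ∧
      (N : ℤ) ∣ (((u : ZMod N).val : ℕ) : ℤ) * γ 0 1) := by
  rintro ⟨h1, h2⟩
  have hdet : γ 0 0 * γ 1 1 - γ 0 1 * γ 1 0 = 1 := by
    have h := γ.det_coe
    rw [Matrix.det_fin_two] at h
    exact h
  have h3 : (N : ℤ) ∣ (((u : ZMod N).val : ℕ) : ℤ) := by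
    have e : (((u : ZMod N).val : ℕ) : ℤ)
        = (((u : ZMod N).val : ℕ) : ℤ) * γ 0 0 * γ 1 1
          - (((u : ZMod N).val : ℕ) : ℤ) * γ 0 1 * γ 1 0 := by
      linear_combination (-(((u : ZMod N).val : ℕ) : ℤ)) * hdet
    rw [e]
    exact dvd_sub (Dvd.dvd.mul_right h1 _) (Dvd.dvd.mul_right h2 _)
  exact unit_val_not_dvd hN u ⟨h3, dvd_zero _⟩

theorem fSumAt_eq_sum {N : ℕ} [NeZero N] (ψ : DirichletCharacter ℂ N) (γ : SL(2, ℤ)) :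
    fSumAt N ψ γ = ∑ u : (ZMod N)ˣ, (ψ u) •
      phiFun N ((((u : ZMod N).val : ℕ) : ℤ) * γ 0 0) ((((u : ZMod N).val : ℕ) : ℤ) * γ 0 1) := by
  funext τ
  rw [fSumAt, Finset.sum_apply]
  rfl

theorem mdifferentiable_fSumAt {N : ℕ} [NeZero N] (hN : 1 < N) (ψ : DirichletCharacter ℂ N)
    (γ : SL(2, ℤ)) : MDifferentiable 𝓘(ℂ) 𝓘(ℂ) (fSumAt N ψ γ) := by
  rw [fSumAt_eq_sum]
  exact MDifferentiable.sum fun u _ =>
    (mdifferentiable_phiFun (unit_row_not_dvd hN u γ)).const_smul _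

theorem isBoundedAtImInfty_fSumAt {N : ℕ} [NeZero N] (hN : 1 < N)
    (ψ : DirichletCharacter ℂ N) (γ : SL(2, ℤ)) : IsBoundedAtImInfty (fSumAt N ψ γ) := by
  rw [fSumAt_eq_sum]
  refine Finset.sum_induction _ (fun f : ℍ → ℂ => IsBoundedAtImInfty f)
    (fun f g hf hg => Filter.BoundedAtFilter.add hf hg) ?_ (fun u _ => ?_)
  · exact Filter.const_boundedAtFilter _ (0 : ℂ)
  · exact Filter.BoundedAtFilter.smul _ (isBoundedAtImInfty_phiFun (unit_row_not_dvd hN u γ))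

theorem fSumAt_one {N : ℕ} [NeZero N] (ψ : DirichletCharacter ℂ N) :
    fSumAt N ψ 1 = fSum N ψ := by
  funext τ
  rw [fSumAt, fSum]
  refine Finset.sum_congr rfl fun u _ => ?_
  simp [phiZ]

theorem fSumAt_of_mem_Gamma {N : ℕ} [NeZero N] (hN : 1 < N) (ψ : DirichletCharacter ℂ N)
    {γ : SL(2, ℤ)} (hγ : γ ∈ CongruenceSubgroup.Gamma N) : fSumAt N ψ γ = fSum N ψ := by
  funext τ
  rw [Gamma_mem] at hγ
  have := fSumAt_of_upper hN ψ γ 1 (by simpa using hγ.1) hγ.2.1 τ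
  simpa using this

/-- `F` as a modular form of weight one on `Γ(N)`. -/
def fSumMF {N : ℕ} [NeZero N] (hN : 1 < N) (ψ : DirichletCharacter ℂ N) :
    ModularForm (CongruenceSubgroup.Gamma N) 1 where
  toFun := fSum N ψ
  slash_action_eq' := by
    intro g hg
    obtain ⟨γ, hγ, rfl⟩ := Subgroup.mem_map.mp hg
    have := fSum_slash hN ψ γ
    rw [fSumAt_of_mem_Gamma hN ψ hγ] at this
    rwa [SL_slash] at this
  holo' := by
    have := mdifferentiable_fSumAt hN ψ 1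
    rw [fSumAt_one] at this
    exact this
  bdd_at_cusps' := by
    intro c hc
    rw [Subgroup.IsArithmetic.isCusp_iff_isCusp_SL2Z] at hc
    rw [OnePoint.isBoundedAt_iff_forall_SL2Z hc]
    intro γ _
    have := isBoundedAtImInfty_fSumAt hN ψ γ
    rw [← fSum_slash hN] at this
    exact this

theorem coe_fSumMF {N : ℕ} [NeZero N] (hN : 1 < N) (ψ : DirichletCharacter ℂ N) :
    (fSumMF hN ψ : ℍ → ℂ) = fSum N ψ := rfl


/-! ### level raising `τ ↦ Nτ` -/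

/-- `diag(N, 1) ∈ GL₂(ℚ)`. -/
def lvlQ (N : ℕ) [NeZero N] : GL (Fin 2) ℚ :=
  Matrix.GeneralLinearGroup.mkOfDetNeZero !![(N : ℚ), 0; 0, 1]
    (by simp [Matrix.det_fin_two, NeZero.ne N])

/-- `diag(N, 1) ∈ GL₂(ℝ)`. -/
def lvlR (N : ℕ) [NeZero N] : GL (Fin 2) ℝ :=
  Matrix.GeneralLinearGroup.map (Rat.castHom ℝ) (lvlQ N)

theorem lvlR_coe (N : ℕ) [NeZero N] :
    (lvlR N : Matrix (Fin 2) (Fin 2) ℝ) = !![(N : ℝ), 0; 0, 1] := by
  ext i j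
  fin_cases i <;> fin_cases j <;> simp [lvlR, lvlQ, Matrix.GeneralLinearGroup.map]

theorem lvlR_det_pos (N : ℕ) [NeZero N] : 0 < (lvlR N).det.val := by
  have h : (lvlR N).det.val = (N : ℝ) := by
    simp [lvlR, lvlQ, Matrix.GeneralLinearGroup.map, Matrix.det_fin_two]
  rw [h]
  exact Nat.cast_pos.mpr (Nat.pos_of_ne_zero (NeZero.ne N))

theorem sigma_lvlR (N : ℕ) [NeZero N] (z : ℂ) : σ (lvlR N) z = z := by
  rw [σ, if_pos (lvlR_det_pos N)]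
  rfl

theorem num_lvlR (N : ℕ) [NeZero N] (z : ℂ) : num (lvlR N) z = (N : ℂ) * z := by
  rw [num, lvlR_coe]
  simp

theorem denom_lvlR (N : ℕ) [NeZero N] (z : ℂ) : denom (lvlR N) z = 1 := by
  rw [denom, lvlR_coe]
  simp

theorem coe_lvlR_smul (N : ℕ) [NeZero N] (τ : ℍ) :
    ((lvlR N • τ : ℍ) : ℂ) = (N : ℂ) * τ := by
  rw [UpperHalfPlane.coe_smul, sigma_lvlR, num_lvlR, denom_lvlR, div_one]

theorem slash_lvlR (N : ℕ) [NeZero N] (f : ℍ → ℂ) (τ : ℍ) :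
    (f ∣[(1 : ℤ)] lvlR N) τ = f (lvlR N • τ) := by
  rw [ModularForm.slash_apply, sigma_lvlR, denom_lvlR]
  simp

/-- the matrix `(a, N b; c / N, d)` of `γ = (a, b; c, d) ∈ Γ₀(N)`. -/
def conjMat (N : ℕ) (γ : SL(2, ℤ)) : Matrix (Fin 2) (Fin 2) ℤ :=
  !![γ 0 0, N * γ 0 1; γ 1 0 / N, γ 1 1]

theorem conjMat_det {N : ℕ} {γ : SL(2, ℤ)} (hγ : γ ∈ Gamma0 N) : (conjMat N γ).det = 1 := by
  rw [Gamma0_mem] at hγ
  have hd : (N : ℤ) ∣ γ 1 0 := (ZMod.intCast_zmod_eq_zero_iff_dvd _ N).mp hγ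
  have hdet : γ 0 0 * γ 1 1 - γ 0 1 * γ 1 0 = 1 := by
    have h := γ.det_coe
    rw [Matrix.det_fin_two] at h
    exact h
  rw [conjMat, Matrix.det_fin_two]
  simp only [Matrix.of_apply, Matrix.cons_val', Matrix.cons_val_zero, Matrix.cons_val_one,
    Matrix.cons_val_fin_one]
  rw [mul_assoc, mul_comm (N : ℤ), mul_assoc, Int.ediv_mul_cancel hd]
  linarith

/-- `γ̃ = (a, N b; c / N, d) ∈ SL(2, ℤ)`. -/
def conjSL (N : ℕ) (γ : SL(2, ℤ)) (hγ : γ ∈ Gamma0 N) : SL(2, ℤ) :=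
  ⟨conjMat N γ, conjMat_det hγ⟩

theorem conjSL_apply (N : ℕ) (γ : SL(2, ℤ)) (hγ : γ ∈ Gamma0 N) :
    (conjSL N γ hγ) 0 0 = γ 0 0 ∧ (conjSL N γ hγ) 0 1 = N * γ 0 1 ∧
      (conjSL N γ hγ) 1 0 = γ 1 0 / N ∧ (conjSL N γ hγ) 1 1 = γ 1 1 := by
  refine ⟨rfl, rfl, rfl, rfl⟩

theorem jFac_conjSL (N : ℕ) [NeZero N] (γ : SL(2, ℤ)) (hγ : γ ∈ Gamma0 N) (τ : ℍ) :
    jFac (conjSL N γ hγ) (lvlR N • τ) = jFac γ τ := by
  have hN : (N : ℂ) ≠ 0 := Nat.cast_ne_zero.mpr (NeZero.ne N)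
  have hd : (N : ℤ) ∣ γ 1 0 := (ZMod.intCast_zmod_eq_zero_iff_dvd _ N).mp (Gamma0_mem.mp hγ)
  obtain ⟨h00, h01, h10, h11⟩ := conjSL_apply N γ hγ
  rw [jFac, jFac, coe_lvlR_smul, h10, h11]
  obtain ⟨k, hk⟩ := hd
  rw [hk, Int.mul_ediv_cancel_left _ (by exact_mod_cast NeZero.ne N)]
  push_cast
  ring

theorem conjSL_smul (N : ℕ) [NeZero N] (γ : SL(2, ℤ)) (hγ : γ ∈ Gamma0 N) (τ : ℍ) :
    conjSL N γ hγ • (lvlR N • τ) = lvlR N • (γ • τ) := by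
  have hN : (N : ℂ) ≠ 0 := Nat.cast_ne_zero.mpr (NeZero.ne N)
  apply UpperHalfPlane.ext
  rw [coe_smul_eq, jFac_conjSL, coe_lvlR_smul, coe_lvlR_smul, coe_smul_eq]
  obtain ⟨h00, h01, h10, h11⟩ := conjSL_apply N γ hγ
  rw [h00, h01]
  push_cast
  field_simp

/-- `F(N γτ) = (cτ + d) ψ(d) F(Nτ)` for `γ ∈ Γ₀(N)`. -/
theorem fSum_lvl_smul {N : ℕ} [NeZero N] (hN : 1 < N) (ψ : DirichletCharacter ℂ N)
    (γ : SL(2, ℤ)) (hγ : γ ∈ Gamma0 N) (τ : ℍ) :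
    fSum N ψ (lvlR N • (γ • τ))
      = jFac γ τ * (ψ ((γ 1 1 : ℤ) : ZMod N) * fSum N ψ (lvlR N • τ)) := by
  have hc : ((γ 1 0 : ℤ) : ZMod N) = 0 := Gamma0_mem.mp hγ
  have hdet : ((γ 0 0 : ℤ) : ZMod N) * ((γ 1 1 : ℤ) : ZMod N) = 1 := by
    have h := γ.det_coe
    rw [Matrix.det_fin_two] at h
    have h2 := congrArg (fun x : ℤ => (x : ZMod N)) h
    simp only [Int.cast_sub, Int.cast_mul, Int.cast_one] at h2
    rw [hc, mul_zero, sub_zero] at h2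
    exact h2
  let a : (ZMod N)ˣ := ⟨((γ 0 0 : ℤ) : ZMod N), ((γ 1 1 : ℤ) : ZMod N), hdet,
    by rw [mul_comm]; exact hdet⟩
  obtain ⟨h00, h01, h10, h11⟩ := conjSL_apply N γ hγ
  rw [← conjSL_smul N γ hγ τ, fSum_smul hN, jFac_conjSL,
    fSumAt_of_upper hN ψ (conjSL N γ hγ) a (by rw [h00]) (by rw [h01]; simp)]
  rfl


/-! ### the modular form `E₁^ψ` on `Γ₁(N)` -/

/-- `E₁^ψ(τ) = (-4πi)⁻¹ F(Nτ)`. -/
def eis1MFun (N : ℕ) [NeZero N] (ψ : DirichletCharacter ℂ N) (τ : ℍ) : ℂ :=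
  (-(4 * π * I))⁻¹ * fSum N ψ (lvlR N • τ)

theorem eis1MFun_eq_smul_slash (N : ℕ) [NeZero N] (ψ : DirichletCharacter ℂ N) :
    eis1MFun N ψ = (-(4 * π * I))⁻¹ • ((fSum N ψ) ∣[(1 : ℤ)] lvlR N) := by
  funext τ
  rw [Pi.smul_apply, slash_lvlR, smul_eq_mul, eis1MFun]

/-- the nebentypus of `E₁^ψ`. -/
theorem eis1MFun_neb {N : ℕ} [NeZero N] (hN : 1 < N) (ψ : DirichletCharacter ℂ N)
    (γ : SL(2, ℤ)) (hγ : γ ∈ Gamma0 N) (τ : ℍ) :
    ((eis1MFun N ψ) ∣[(1 : ℤ)] γ) τ = ψ ((γ 1 1 : ℤ) : ZMod N) * eis1MFun N ψ τ := by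
  have hd : denom (Matrix.SpecialLinearGroup.toGL
      ((Matrix.SpecialLinearGroup.map (Int.castRingHom ℝ)) γ)) (τ : ℂ) = jFac γ τ :=
    denom_eq_jFac γ τ
  have hj := jFac_ne_zero γ τ
  rw [SL_slash_apply, eis1MFun, eis1MFun, fSum_lvl_smul hN ψ γ hγ, hd, zpow_neg, zpow_one]
  field_simp

theorem isArithmetic_conj_lvlR (N : ℕ) [NeZero N] :
    (ConjAct.toConjAct (lvlR N)⁻¹ •
      ((CongruenceSubgroup.Gamma N : Subgroup SL(2, ℤ)) : Subgroup (GL (Fin 2) ℝ))).IsArithmetic := by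
  have h := Subgroup.IsArithmetic.conj
    ((CongruenceSubgroup.Gamma N : Subgroup SL(2, ℤ)) : Subgroup (GL (Fin 2) ℝ)) (lvlQ N)⁻¹
  rw [map_inv] at h
  exact h

/-- **`E₁^ψ` as a modular form of weight one on `Γ₁(N)`.** -/
def eis1MF {N : ℕ} [NeZero N] (hN : 1 < N) (ψ : DirichletCharacter ℂ N) :
    ModularForm (Gamma1 N) 1 where
  toFun := eis1MFun N ψ
  slash_action_eq' := by
    intro g hg
    obtain ⟨γ, hγ, rfl⟩ := Subgroup.mem_map.mp hg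
    have h0 : γ ∈ Gamma0 N := Gamma1_in_Gamma0 N hγ
    have h1 : (eis1MFun N ψ) ∣[(1 : ℤ)] γ = eis1MFun N ψ := by
      funext τ
      rw [eis1MFun_neb hN ψ γ h0]
      have : ((γ 1 1 : ℤ) : ZMod N) = 1 := ((Gamma1_mem N γ).mp hγ).2.1
      rw [this, map_one, one_mul]
    rwa [SL_slash] at h1
  holo' := by
    have h := (ModularForm.translate (fSumMF hN ψ) (lvlR N)).holo'
    have h2 : MDifferentiable 𝓘(ℂ) 𝓘(ℂ) ((fSum N ψ) ∣[(1 : ℤ)] lvlR N) := h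
    have h3 := h2.const_smul ((-(4 * π * I))⁻¹ : ℂ)
    rw [← eis1MFun_eq_smul_slash] at h3
    exact h3
  bdd_at_cusps' := by
    intro c hc g hg
    have hc1 := (Subgroup.IsArithmetic.isCusp_iff_isCusp_SL2Z _).mp hc
    have := isArithmetic_conj_lvlR N
    have hc2 := (Subgroup.IsArithmetic.isCusp_iff_isCusp_SL2Z
      (ConjAct.toConjAct (lvlR N)⁻¹ •
        ((CongruenceSubgroup.Gamma N : Subgroup SL(2, ℤ)) : Subgroup (GL (Fin 2) ℝ)))).mpr hc1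
    have hb := (ModularForm.translate (fSumMF hN ψ) (lvlR N)).bdd_at_cusps' hc2 g hg
    have hb2 : IsBoundedAtImInfty (((fSum N ψ) ∣[(1 : ℤ)] lvlR N) ∣[(1 : ℤ)] g) := hb
    show IsBoundedAtImInfty ((eis1MFun N ψ) ∣[(1 : ℤ)] g)
    rw [eis1MFun_eq_smul_slash, smul_slash]
    exact hb2.const_smul_left _

theorem coe_eis1MF {N : ℕ} [NeZero N] (hN : 1 < N) (ψ : DirichletCharacter ℂ N) :
    (eis1MF hN ψ : ℍ → ℂ) = eis1MFun N ψ := rfl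


/-! ### assembly -/

theorem one_lt_of_odd {N : ℕ} [NeZero N] {ψ : DirichletCharacter ℂ N} (hψ : ψ.Odd) : 1 < N := by
  rcases Nat.lt_or_ge 1 N with h | h
  · exact h
  · exfalso
    have hN1 : N = 1 := le_antisymm h (Nat.pos_of_ne_zero (NeZero.ne N))
    subst hN1
    have h1 : ψ (-1) = -1 := hψ
    have h2 : (-1 : ZMod 1) = 1 := Subsingleton.elim _ _
    rw [h2, map_one] at h1
    norm_num at h1

theorem sum_units_eq {N : ℕ} [NeZero N] (ψ : DirichletCharacter ℂ N) (f : ZMod N → ℂ) :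
    ∑ y : ZMod N, ψ y * f y = ∑ u : (ZMod N)ˣ, ψ u * f u := by
  classical
  rw [← Finset.sum_filter_add_sum_filter_not Finset.univ (fun y : ZMod N => IsUnit y)]
  have h2 : ∑ y ∈ Finset.univ.filter (fun y : ZMod N => ¬ IsUnit y), ψ y * f y = 0 := by
    refine Finset.sum_eq_zero fun y hy => ?_
    rw [Finset.mem_filter] at hy
    rw [MulChar.map_nonunit ψ hy.2, zero_mul]
  rw [h2, add_zero]
  have h3 : Finset.univ.filter (fun y : ZMod N => IsUnit y)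
      = Finset.univ.map ⟨fun u : (ZMod N)ˣ => (u : ZMod N), Units.val_injective⟩ := by
    ext y
    simp only [Finset.mem_filter, Finset.mem_univ, true_and, Finset.mem_map,
      Function.Embedding.coeFn_mk]
    constructor
    · rintro ⟨u, rfl⟩
      exact ⟨u, rfl⟩
    · rintro ⟨u, rfl⟩
      exact u.isUnit
  rw [h3, Finset.sum_map]
  rfl

theorem eis1MFun_eq_eis1Fun {N : ℕ} [NeZero N] (ψ : DirichletCharacter ℂ N) (τ : ℍ) :
    eis1MFun N ψ τ = eis1Fun N ψ τ := by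
  rw [eis1MFun, eis1Fun, fSum,
    sum_units_eq ψ (fun y : ZMod N => phiC N (y.val : ℤ) 0 ((N : ℂ) * τ))]
  congr 1
  refine Finset.sum_congr rfl fun u _ => ?_
  rw [phiZ, phiFun, coe_lvlR_smul]

/-- **(P2)** from the `q`-expansion (seat QEXP). -/
theorem eis1Statement_of (hq : Eis1QExpStatement) : Eis1Statement := by
  intro N _ ψ hψ
  have hN := one_lt_of_odd hψ
  refine ⟨eis1MF hN ψ, fun γ hγ z => ?_, ?_, fun n hn => ?_⟩
  · exact eis1MFun_neb hN ψ γ hγ z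
  · have h1 : (1 : ℝ) ∈ ((Gamma1 N : Subgroup (GL (Fin 2) ℝ))).strictPeriods := by
      rw [strictPeriods_Gamma1]
      exact AddSubgroup.mem_zmultiples 1
    have hs : ∀ τ : ℍ, HasSum (fun m : ℕ => eis1Coeff N ψ m • Function.Periodic.qParam 1 τ ^ m)
        ((eis1MF hN ψ) τ) := by
      intro τ
      have := hq N ψ hψ τ
      rw [← eis1MFun_eq_eis1Fun] at this
      exact this
    have := ModularFormClass.qExpansion_coeff_unique one_pos h1 hs 0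
    rw [← this, eis1Coeff, if_pos rfl]
  · have h1 : (1 : ℝ) ∈ ((Gamma1 N : Subgroup (GL (Fin 2) ℝ))).strictPeriods := by
      rw [strictPeriods_Gamma1]
      exact AddSubgroup.mem_zmultiples 1
    have hs : ∀ τ : ℍ, HasSum (fun m : ℕ => eis1Coeff N ψ m • Function.Periodic.qParam 1 τ ^ m)
        ((eis1MF hN ψ) τ) := by
      intro τ
      have := hq N ψ hψ τ
      rw [← eis1MFun_eq_eis1Fun] at this
      exact this
    have := ModularFormClass.qExpansion_coeff_unique one_pos h1 hs n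
    rw [← this, eis1Coeff, if_neg hn.ne']

end Fermat.Agent.S48.Eis1
end
end MergeWrap_S48_Eis1_Main

section MergeWrap_S48_Eis1_QExp_Lambert -- from S48/Eis1/QExp/Lambert.lean

set_option autoImplicit false

/-!
# S48 (P2), seat QEXP (helper7): the Lambert series of a bounded sequence  (pure Mathlib)

For `‖f m‖ ≤ 1` and `‖q‖ < 1`:
`∑_{d ≥ 1} f d · q^d / (1 - q^d) = ∑_{n ≥ 1} (∑_{d ∣ n} f d) qⁿ`  (both sides summable).
-/

noncomputable section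

open Filter Topology

namespace Fermat.Agent.S48.Eis1

/-- the double series `∑_{d, c ≥ 1} f d q^{dc}` is summable. -/
theorem lam_summable_prod (f : ℕ → ℂ) (hf : ∀ m, ‖f m‖ ≤ 1) {q : ℂ} (hq : ‖q‖ < 1) :
    Summable fun c : ℕ+ × ℕ+ => f c.1 * q ^ ((c.1 : ℕ) * (c.2 : ℕ)) := by
  have hr : ‖(‖q‖ : ℝ)‖ < 1 := by rwa [norm_norm]
  have h0 := summable_prod_mul_pow (𝕜 := ℝ) 0 hr
  refine Summable.of_norm_bounded (g := fun c : ℕ+ × ℕ+ => ‖q‖ ^ ((c.1 : ℕ) * (c.2 : ℕ))) ?_ ?_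
  · refine h0.congr fun c => ?_
    simp
  · intro c
    rw [norm_mul, norm_pow]
    calc ‖f c.1‖ * ‖q‖ ^ ((c.1 : ℕ) * (c.2 : ℕ)) ≤ 1 * ‖q‖ ^ ((c.1 : ℕ) * (c.2 : ℕ)) :=
          mul_le_mul_of_nonneg_right (hf _) (by positivity)
      _ = ‖q‖ ^ ((c.1 : ℕ) * (c.2 : ℕ)) := one_mul _

/-- the geometric series `∑_{c ≥ 1} ξ^c = ξ / (1 - ξ)`. -/
theorem lam_hasSum_geometric {ξ : ℂ} (hξ : ‖ξ‖ < 1) :
    HasSum (fun c : ℕ+ => ξ ^ (c : ℕ)) (ξ / (1 - ξ)) := by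
  have h1 := (hasSum_geometric_of_norm_lt_one hξ).mul_left ξ
  have h2 : HasSum (fun n : ℕ => ξ ^ (n + 1)) (ξ / (1 - ξ)) := by
    rw [div_eq_mul_inv]
    have e : (fun n : ℕ => ξ ^ (n + 1)) = fun n : ℕ => ξ * ξ ^ n := by
      funext n
      rw [pow_succ']
    rw [e]
    exact h1
  exact (hasSum_pnat_iff_hasSum_succ (f := fun n : ℕ => ξ ^ n)).mpr h2

/-- **the Lambert series**, first form: `∑_d f d q^d/(1 - q^d)` is the sum of the double series. -/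
theorem lam_hasSum_fst (f : ℕ → ℂ) (hf : ∀ m, ‖f m‖ ≤ 1) {q : ℂ} (hq : ‖q‖ < 1) :
    HasSum (fun d : ℕ+ => f d * (q ^ (d : ℕ) / (1 - q ^ (d : ℕ))))
      (∑' c : ℕ+ × ℕ+, f c.1 * q ^ ((c.1 : ℕ) * (c.2 : ℕ))) := by
  refine (lam_summable_prod f hf hq).hasSum.prod_fiberwise fun d => ?_
  have hd : ‖q ^ (d : ℕ)‖ < 1 := by
    rw [norm_pow]
    exact pow_lt_one₀ (norm_nonneg _) hq d.ne_zero
  have h := (lam_hasSum_geometric hd).mul_left (f d)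
  have e : (fun c : ℕ+ => f d * q ^ ((d : ℕ) * (c : ℕ)))
      = fun c : ℕ+ => f d * (q ^ (d : ℕ)) ^ (c : ℕ) := by
    funext c
    rw [pow_mul]
  show HasSum (fun c : ℕ+ => f d * q ^ ((d : ℕ) * (c : ℕ))) _
  rw [e]
  exact h

/-- **the Lambert series**, second form: `∑_n (∑_{d ∣ n} f d) qⁿ` is the sum of the double
series. -/
theorem lam_hasSum_snd (f : ℕ → ℂ) (hf : ∀ m, ‖f m‖ ≤ 1) {q : ℂ} (hq : ‖q‖ < 1) :
    HasSum (fun n : ℕ+ => (∑ d ∈ (n : ℕ).divisors, f d) * q ^ (n : ℕ))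
      (∑' c : ℕ+ × ℕ+, f c.1 * q ^ ((c.1 : ℕ) * (c.2 : ℕ))) := by
  have h1 := (sigmaAntidiagonalEquivProd.hasSum_iff
    (f := fun c : ℕ+ × ℕ+ => f c.1 * q ^ ((c.1 : ℕ) * (c.2 : ℕ)))).mpr
    (lam_summable_prod f hf hq).hasSum
  refine h1.sigma fun n => ?_
  have h2 : (∑ d ∈ (n : ℕ).divisors, f d) * q ^ (n : ℕ)
      = ∑ x : (n : ℕ).divisorsAntidiagonal,
          ((fun c : ℕ+ × ℕ+ => f c.1 * q ^ ((c.1 : ℕ) * (c.2 : ℕ))) ∘ sigmaAntidiagonalEquivProd)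
            ⟨n, x⟩ := by
    have e1 : ∀ x : (n : ℕ).divisorsAntidiagonal,
        ((fun c : ℕ+ × ℕ+ => f c.1 * q ^ ((c.1 : ℕ) * (c.2 : ℕ))) ∘ sigmaAntidiagonalEquivProd)
            ⟨n, x⟩ = f x.1.1 * q ^ (x.1.1 * x.1.2) := fun x => rfl
    simp only [e1]
    rw [Finset.univ_eq_attach,
      (n : ℕ).divisorsAntidiagonal.sum_attach (fun x : ℕ × ℕ => f x.1 * q ^ (x.1 * x.2)),
      Nat.sum_divisorsAntidiagonal (fun d c => f d * q ^ (d * c)), Finset.sum_mul]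
    refine Finset.sum_congr rfl fun d hd => ?_
    rw [Nat.mul_div_cancel' (Nat.dvd_of_mem_divisors hd)]
  rw [h2]
  exact hasSum_fintype _

/-- **the Lambert series**: `∑_{d ≥ 1} f d q^d/(1 - q^d) = ∑_{n ≥ 1} (∑_{d ∣ n} f d) qⁿ`. -/
theorem lam_hasSum (f : ℕ → ℂ) (hf : ∀ m, ‖f m‖ ≤ 1) {q : ℂ} (hq : ‖q‖ < 1) :
    HasSum (fun n : ℕ+ => (∑ d ∈ (n : ℕ).divisors, f d) * q ^ (n : ℕ))
      (∑' d : ℕ+, f d * (q ^ (d : ℕ) / (1 - q ^ (d : ℕ)))) := by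
  rw [(lam_hasSum_fst f hf hq).tsum_eq]
  exact lam_hasSum_snd f hf hq

theorem lam_summable (f : ℕ → ℂ) (hf : ∀ m, ‖f m‖ ≤ 1) {q : ℂ} (hq : ‖q‖ < 1) :
    Summable fun d : ℕ+ => f d * (q ^ (d : ℕ) / (1 - q ^ (d : ℕ))) :=
  (lam_hasSum_fst f hf hq).summable

end Fermat.Agent.S48.Eis1
end
end MergeWrap_S48_Eis1_QExp_Lambert

section MergeWrap_S48_Eis1_QExp -- from S48/Eis1/QExp.lean

set_option autoImplicit false

/-!
# S48 (P2), seat QEXP (helper7): the `q`-expansion of `E₁^ψ`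

`theorem eis1QExp : Eis1QExpStatement`.

For `0 < r < N`, `q = e(τ)`, `S(r) = ∑_{n ≥ 0} g(q^{r + N n})`:
`φ_{(r,0)}(Nτ) = -πi + 2πi r/N - 2πi S(r) + 2πi S(N - r)`   (`e1q_phiC`).
Sum against the odd character `ψ` (`∑ ψ = 0`, `y ↦ -y`), residue classes
(`Nat.sumByResidueClasses`), and the Lambert series (`lam_hasSum`).
-/

noncomputable section

open Complex Real
open UpperHalfPlane hiding I

namespace Fermat.Agent.S48.Eis1

theorem e1q_qParam (τ : ℍ) : Function.Periodic.qParam 1 (τ : ℂ) = eExp τ := by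
  simp [Function.Periodic.qParam, eExp]

/-- `S(r) = ∑_n g(q^{r + N n})`. -/
def e1qS (N : ℕ) (q : ℂ) (r : ℕ) : ℂ := ∑' n : ℕ, gFun (q ^ (r + N * n))

theorem e1q_eExp_pow (τ : ℂ) (N r n : ℕ) :
    eExp ((r : ℂ) * τ + (n : ℂ) * ((N : ℂ) * τ)) = eExp τ ^ (r + N * n) := by
  rw [← eExp_nat_mul]
  congr 1
  push_cast
  ring

theorem e1q_im_pos (N : ℕ) [NeZero N] {τ : ℂ} (hτ : 0 < τ.im) : 0 < ((N : ℂ) * τ).im := by
  have hN : (0 : ℝ) < N := Nat.cast_pos.mpr (Nat.pos_of_ne_zero (NeZero.ne N))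
  simp only [Complex.mul_im, Complex.natCast_re, Complex.natCast_im, zero_mul, add_zero]
  positivity

theorem e1q_summable (N : ℕ) [NeZero N] {τ : ℂ} (hτ : 0 < τ.im) (r : ℕ) :
    Summable fun n : ℕ => gFun (eExp τ ^ (r + N * n)) := by
  have h := summable_gFun_eExp ((r : ℂ) * τ) (e1q_im_pos N hτ)
  refine h.congr fun n => ?_
  rw [e1q_eExp_pow]

theorem e1q_pow_ne_one {τ : ℂ} (hτ : 0 < τ.im) {r : ℕ} (hr : 0 < r) : eExp τ ^ r ≠ 1 := by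
  intro h
  have h1 : ‖eExp τ ^ r‖ < 1 := by
    rw [norm_pow]
    exact pow_lt_one₀ (norm_nonneg _) (norm_eExp_lt_one hτ) hr.ne'
  rw [h, norm_one] at h1
  exact lt_irrefl _ h1

/-- **Step A**: `φ_{(r,0)}(Nτ)` for `0 < r < N`. -/
theorem e1q_phiC {N : ℕ} [NeZero N] {τ : ℂ} (hτ : 0 < τ.im) {r : ℕ} (hr0 : 0 < r) (hrN : r < N) :
    phiC N (r : ℤ) 0 ((N : ℂ) * τ) =
      -(π * I) + 2 * π * I * r / N - 2 * π * I * e1qS N (eExp τ) r
        + 2 * π * I * e1qS N (eExp τ) (N - r) := by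
  have hN : (N : ℂ) ≠ 0 := Nat.cast_ne_zero.mpr (NeZero.ne N)
  have hz : zPt N (r : ℤ) 0 ((N : ℂ) * τ) = (r : ℂ) * τ := by
    rw [zPt]
    push_cast
    field_simp
    ring
  have he : eExp ((r : ℂ) * τ) ≠ 1 := by
    rw [eExp_nat_mul]
    exact e1q_pow_ne_one hτ hr0
  -- the two series
  have e1 : ∀ n : ℕ, eExp (-((r : ℂ) * τ) + ((n + 1 : ℕ) : ℂ) * ((N : ℂ) * τ))
      = eExp τ ^ ((N - r) + N * n) := by
    intro n
    rw [← eExp_nat_mul]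
    congr 1
    have hc : ((N - r + N * n : ℕ) : ℂ) = (N : ℂ) - r + N * n := by
      rw [Nat.cast_add, Nat.cast_sub hrN.le]
      push_cast
      ring
    rw [hc]
    push_cast
    ring
  have e2 : ∀ n : ℕ, eExp ((r : ℂ) * τ + ((n + 1 : ℕ) : ℂ) * ((N : ℂ) * τ))
      = eExp τ ^ (r + N * (n + 1)) := by
    intro n
    rw [← eExp_nat_mul]
    congr 1
    push_cast
    ring
  have hs1 := e1q_summable N hτ (N - r)
  have hs2 := e1q_summable N hτ r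
  have hs2' : Summable fun n : ℕ => gFun (eExp τ ^ (r + N * (n + 1))) :=
    (summable_nat_add_iff 1).mpr hs2
  have hsum : ∑' n : ℕ, zTerm ((r : ℂ) * τ) ((N : ℂ) * τ) n
      = e1qS N (eExp τ) (N - r) - (e1qS N (eExp τ) r - gFun (eExp τ ^ r)) := by
    have e3 : (fun n : ℕ => zTerm ((r : ℂ) * τ) ((N : ℂ) * τ) n)
        = fun n : ℕ => gFun (eExp τ ^ ((N - r) + N * n)) - gFun (eExp τ ^ (r + N * (n + 1))) := by
      funext n
      rw [zTerm, e1, e2]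
    rw [e3, hs1.tsum_sub hs2']
    have e4 : e1qS N (eExp τ) r
        = gFun (eExp τ ^ r) + ∑' n : ℕ, gFun (eExp τ ^ (r + N * (n + 1))) := by
      rw [e1qS, hs2.tsum_eq_zero_add]
      simp
    rw [e4, e1qS]
    ring
  rw [phiC, hz, zFun, eis1_pi_cot_eq he, hsum, eExp_nat_mul]
  push_cast
  ring

variable {N : ℕ} [NeZero N] (ψ : DirichletCharacter ℂ N)

theorem e1q_one_lt (hψ : ψ.Odd) : 1 < N := by
  rcases Nat.lt_or_ge 1 N with h | h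
  · exact h
  · exfalso
    have hN1 : N = 1 := le_antisymm h (Nat.pos_of_ne_zero (NeZero.ne N))
    subst hN1
    have h1 : (-1 : ZMod 1) = 1 := Subsingleton.elim _ _
    have h2 : ψ (-1) = 1 := by rw [h1, map_one]
    rw [hψ] at h2
    norm_num at h2

theorem e1q_map_zero (hψ : ψ.Odd) : ψ 0 = 0 := by
  haveI : Fact (1 < N) := ⟨e1q_one_lt ψ hψ⟩
  exact MulChar.map_zero ψ

theorem e1q_ne_one (hψ : ψ.Odd) : ψ ≠ 1 := by
  rintro rfl
  have h : (1 : DirichletCharacter ℂ N) (-1) = 1 :=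
    MulChar.one_apply (isUnit_one.neg)
  rw [DirichletCharacter.Odd, h] at hψ
  norm_num at hψ

theorem e1q_sum_eq_zero (hψ : ψ.Odd) : ∑ y : ZMod N, ψ y = 0 :=
  MulChar.sum_eq_zero_of_ne_one (e1q_ne_one ψ hψ)

/-- the reflection `y ↦ -y`. -/
theorem e1q_sum_neg (hψ : ψ.Odd) (S : ℕ → ℂ) :
    ∑ y : ZMod N, ψ y * S (N - y.val) = -∑ y : ZMod N, ψ y * S y.val := by
  rw [← Finset.sum_neg_distrib]
  refine Fintype.sum_equiv (Equiv.neg (ZMod N)) _ _ fun y => ?_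
  simp only [Equiv.neg_apply]
  by_cases hy : y = 0
  · subst hy
    simp [e1q_map_zero ψ hψ]
  · rw [hψ.eval_neg, ZMod.neg_val, if_neg hy]
    ring

/-- **Step B**: the sum against `ψ`. -/
theorem e1q_sum_phiC (hψ : ψ.Odd) {τ : ℂ} (hτ : 0 < τ.im) :
    ∑ y : ZMod N, ψ y * phiC N (y.val : ℤ) 0 ((N : ℂ) * τ)
      = 2 * π * I / N * ∑ y : ZMod N, (y.val : ℂ) * ψ y
        - 4 * π * I * ∑ y : ZMod N, ψ y * e1qS N (eExp τ) y.val := by
  have h1 : ∀ y : ZMod N, ψ y * phiC N (y.val : ℤ) 0 ((N : ℂ) * τ)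
      = -(π * I) * ψ y + 2 * π * I / N * ((y.val : ℂ) * ψ y)
        - 2 * π * I * (ψ y * e1qS N (eExp τ) y.val)
        + 2 * π * I * (ψ y * e1qS N (eExp τ) (N - y.val)) := by
    intro y
    by_cases hy : y = 0
    · subst hy
      simp [e1q_map_zero ψ hψ]
    · have hv0 : 0 < y.val := Nat.pos_of_ne_zero (fun h => hy ((ZMod.val_eq_zero y).mp h))
      rw [show ((y.val : ℕ) : ℤ) = ((y.val : ℕ) : ℤ) from rfl, e1q_phiC hτ hv0 (ZMod.val_lt y)]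
      ring
  rw [Finset.sum_congr rfl fun y _ => h1 y]
  rw [Finset.sum_add_distrib, Finset.sum_sub_distrib, Finset.sum_add_distrib,
    ← Finset.mul_sum, ← Finset.mul_sum, ← Finset.mul_sum, ← Finset.mul_sum,
    e1q_sum_eq_zero ψ hψ, e1q_sum_neg ψ hψ]
  ring

/-- the norm of `g(qⁿ)`-terms is summable against a bounded sequence. -/
theorem e1q_summable_nat (hq : ∀ m : ZMod N, ‖ψ m‖ ≤ 1) {τ : ℂ} (hτ : 0 < τ.im) :
    Summable fun n : ℕ => ψ (n : ZMod N) * gFun (eExp τ ^ n) := by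
  have h := lam_summable (fun m => ψ (m : ZMod N)) (fun m => hq _) (norm_eExp_lt_one hτ)
  have h2 : Summable fun n : ℕ => ψ ((n + 1 : ℕ) : ZMod N) * gFun (eExp τ ^ (n + 1)) := by
    have := (summable_pnat_iff_summable_succ
      (f := fun n : ℕ => ψ (n : ZMod N) * gFun (eExp τ ^ n))).mp
    apply this
    refine h.congr fun d => ?_
    rw [gFun]
  exact (summable_nat_add_iff 1).mp h2

/-- **Step C**: residue classes. -/
theorem e1q_sum_S (hψ : ψ.Odd) {τ : ℂ} (hτ : 0 < τ.im) :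
    ∑ y : ZMod N, ψ y * e1qS N (eExp τ) y.val
      = ∑' d : ℕ+, ψ ((d : ℕ) : ZMod N) * (eExp τ ^ (d : ℕ) / (1 - eExp τ ^ (d : ℕ))) := by
  have hs := e1q_summable_nat ψ (fun m => DirichletCharacter.norm_le_one ψ m) hτ
  have h1 := Nat.sumByResidueClasses hs N
  have h2 : ∀ y : ZMod N, ∑' m : ℕ, ψ ((y.val + N * m : ℕ) : ZMod N)
        * gFun (eExp τ ^ (y.val + N * m)) = ψ y * e1qS N (eExp τ) y.val := by
    intro y
    rw [e1qS, ← tsum_mul_left]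
    refine tsum_congr fun m => ?_
    congr 2
    rw [Nat.cast_add, Nat.cast_mul, ZMod.natCast_self, zero_mul, add_zero, ZMod.natCast_zmod_val]
  rw [Finset.sum_congr rfl fun y _ => h2 y] at h1
  rw [← h1, hs.tsum_eq_zero_add]
  have h0 : ψ ((0 : ℕ) : ZMod N) = 0 := by
    rw [Nat.cast_zero]
    exact e1q_map_zero ψ hψ
  rw [h0, zero_mul, zero_add]
  rw [← tsum_pnat_eq_tsum_succ (f := fun n : ℕ => ψ (n : ZMod N) * gFun (eExp τ ^ n))]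
  refine tsum_congr fun d => ?_
  rw [gFun]

theorem e1q_sum_range (F : ℕ → ZMod N → ℂ) :
    ∑ y : ZMod N, F y.val y = ∑ a ∈ Finset.range N, F a (a : ZMod N) := by
  obtain ⟨n, rfl⟩ := Nat.exists_eq_succ_of_ne_zero (NeZero.ne N)
  rw [Finset.sum_range]
  refine Fintype.sum_equiv (Equiv.refl _) _ _ fun y => ?_
  have h := ZMod.natCast_zmod_val y
  simp only [Equiv.refl_apply]
  congr 1
  exact h.symm

/-- **the `q`-expansion of `E₁^ψ`.** -/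
theorem eis1QExp : Eis1QExpStatement := by
  intro N _ ψ hψ τ
  have hτ : 0 < (τ : ℂ).im := τ.im_pos
  have hq : ‖eExp (τ : ℂ)‖ < 1 := norm_eExp_lt_one hτ
  have hN : (N : ℂ) ≠ 0 := Nat.cast_ne_zero.mpr (NeZero.ne N)
  have hL := lam_hasSum (fun m => ψ (m : ZMod N)) (fun m => DirichletCharacter.norm_le_one ψ _) hq
  set L : ℂ := ∑' d : ℕ+, ψ ((d : ℕ) : ZMod N)
    * (eExp (τ : ℂ) ^ (d : ℕ) / (1 - eExp (τ : ℂ) ^ (d : ℕ))) with hLdef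
  rw [e1q_qParam]
  have hval : eis1Fun N ψ τ = L + eis1Coeff N ψ 0 • eExp (τ : ℂ) ^ 0 := by
    have hB := e1q_sum_phiC ψ hψ hτ
    have hC := e1q_sum_S ψ hψ hτ
    rw [hC, ← hLdef] at hB
    have hR : ∑ y : ZMod N, (y.val : ℂ) * ψ y
        = ∑ a ∈ Finset.range N, (a : ℂ) * ψ (a : ZMod N) :=
      e1q_sum_range (N := N) (fun a y => (a : ℂ) * ψ y)
    rw [eis1Fun, hB, hR, eis1Coeff, if_pos rfl, pow_zero, smul_eq_mul, mul_one]
    have hpi : (π : ℂ) ≠ 0 := by exact_mod_cast Real.pi_ne_zero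
    have hI : (I : ℂ) ≠ 0 := Complex.I_ne_zero
    field_simp
    ring
  rw [hval]
  refine (hasSum_pnat_iff (f := fun n : ℕ => eis1Coeff N ψ n • eExp (τ : ℂ) ^ n)).mp ?_
  have e : (fun x : ℕ+ => eis1Coeff N ψ (x : ℕ) • eExp (τ : ℂ) ^ (x : ℕ))
      = fun n : ℕ+ => (∑ d ∈ (n : ℕ).divisors, ψ (d : ZMod N)) * eExp (τ : ℂ) ^ (n : ℕ) := by
    funext x
    rw [eis1Coeff, if_neg x.ne_zero, smul_eq_mul]
  rw [e]
  exact hL

end Fermat.Agent.S48.Eis1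
end
end MergeWrap_S48_Eis1_QExp

section MergeWrap_S48_Eis1_Final -- from S48/Eis1/Final.lean

set_option autoImplicit false

/-!
# S48 (P2): the weight-one Eisenstein series `E₁^ψ` — final statement  (helper33, QEXP: helper7)

`eis1Statement : Eis1Statement`: for every odd Dirichlet character `ψ` mod `N` there is a modular
form of weight one on `Γ₁(N)` with nebentypus `ψ` and `q`-expansion
`-(1/(2N)) ∑_{a<N} a ψ(a) + ∑_{n ≥ 1} (∑_{d ∣ n} ψ(d)) qⁿ`.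
-/

namespace Fermat.Agent.S48.Eis1

/-- **(P2)** the weight-one Eisenstein series. -/
theorem eis1Statement : Eis1Statement := eis1Statement_of eis1QExp

end Fermat.Agent.S48.Eis1
end MergeWrap_S48_Eis1_Final
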